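import Fermat.Agent.S41.Defs
import Fermat.Agent.S41.Forms.Incl
import Fermat.Agent.NEW.LinkConv
import Fermat.Agent.S16.PeriodHecke

/-!
# S41, (E8): periods of `f(z)` and of `q f(q z)` at level `N q`
-/

set_option autoImplicit false

namespace Fermat.Agent.S41.Link

open CongruenceSubgroup Matrix.SpecialLinearGroup ModularForm ModularCurve ModularCurve.Period
open Fermat.Agent.S16 Fermat.Agent.S31 Fermat.Agent.NEW Fermat.Agent.S41.Forms
open scoped MatrixGroups Manifold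

variable (N q : ℕ) [NeZero N] [NeZero q]

/-- `d γ = (d γ d⁻¹) d`. -/
theorem diag_mul (γ : Gamma0 (N * q)) :
    heckeDiagMatrix q * mapGL ℝ (γ : SL(2, ℤ)) =
      mapGL ℝ (conjSL N q γ) * heckeDiagMatrix q := by
  have hq0 : q ≠ 0 := NeZero.ne q
  apply Units.ext
  have h10 := q_mul_conjSL_10 N q γ
  have h10' : (q : ℝ) * ((conjSL N q γ) 1 0 : ℤ) = (((γ : SL(2, ℤ)) 1 0 : ℤ) : ℝ) := by
    exact_mod_cast h10
  have e00 : (conjSL N q γ) 0 0 = (γ : SL(2, ℤ)) 0 0 := rfl
  have e01 : (conjSL N q γ) 0 1 = q * (γ : SL(2, ℤ)) 0 1 := rfl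
  have e11 : (conjSL N q γ) 1 1 = (γ : SL(2, ℤ)) 1 1 := rfl
  rw [Units.val_mul, Units.val_mul, val_heckeDiagMatrix hq0]
  ext i j
  fin_cases i <;> fin_cases j <;>
    simp [Matrix.mul_apply, Fin.sum_univ_two, e00, e01, e11, ← h10'] <;> ring

theorem diag_smul (γ : Gamma0 (N * q)) (z : UpperHalfPlane) :
    heckeDiagMatrix q • ((γ : SL(2, ℤ)) • z) = conjSL N q γ • (heckeDiagMatrix q • z) := by
  have := congrArg (fun g : GL (Fin 2) ℝ => g • z) (diag_mul N q γ)
  simp only [mul_smul] at this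
  exact this

theorem periodMap_inclA (f : CuspForm (Gamma0 N) 2) (γ : Gamma0 (N * q)) :
    periodMap (N * q) (inclA N q f) (Additive.ofMul γ) =
      periodMap N f (Additive.ofMul (inclG N q γ)) := by
  obtain ⟨F, hF⟩ := ES.exists_hasEquivariantPrimitive N f
  obtain ⟨h1, h2, h3⟩ := ES.hep_props hF
  have hGE := ES.hasEquivariantPrimitive_of (N * q) (inclA N q f) h1 h2 h3
  rw [ES.periodMap_apply (N * q) _ hGE γ UpperHalfPlane.I,
    ES.periodMap_apply N f hF (inclG N q γ) UpperHalfPlane.I]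
  rfl

theorem periodMap_inclB (f : CuspForm (Gamma0 N) 2) (γ : Gamma0 (N * q)) :
    periodMap (N * q) (inclB N q f) (Additive.ofMul γ) =
      periodMap N f (Additive.ofMul (conjG N q γ)) := by
  obtain ⟨F, hF⟩ := ES.exists_hasEquivariantPrimitive N f
  obtain ⟨h1, h2, h3⟩ := ES.hep_props hF
  have hq0 : q ≠ 0 := NeZero.ne q
  have hdet : 0 < ((heckeDiagMatrix q).det : ℝ) := det_heckeDiagMatrix_pos q
  set G : UpperHalfPlane → ℂ := fun z => F (heckeDiagMatrix q • z) with hGdef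
  have hG1 : MDiff G := ph_mdiff_comp h1 hdet
  have hG2 : Derivative.normalizedDerivOfComplex G = (2 * Real.pi * Complex.I : ℂ)⁻¹ •
      ((inclB N q f : CuspForm (Gamma0 (N * q)) 2) : UpperHalfPlane → ℂ) := by
    rw [hGdef, ph_D_comp h1 hdet, h2, ModularForm.smul_slash, coe_inclB]
    have hσ (c) : UpperHalfPlane.σ (heckeDiagMatrix q) c = c := by
      grind [UpperHalfPlane.σ, ContinuousAlgEquiv.refl_apply]
    simp [hσ]
  have hG3 : UpperHalfPlane.IsZeroAtImInfty G := h3.comp (ph_tendsto_hRep hq0 none)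
  have hGE := ES.hasEquivariantPrimitive_of (N * q) _ hG1 hG2 hG3
  rw [ES.periodMap_apply (N * q) _ hGE γ UpperHalfPlane.I,
    ES.periodMap_apply N f hF (conjG N q γ) (heckeDiagMatrix q • UpperHalfPlane.I)]
  simp only [hGdef]
  rw [diag_smul]
  rfl

theorem jConj_inclG (γ : Gamma0 (N * q)) :
    jConjGamma0 N (inclG N q γ) = inclG N q (jConjGamma0 (N * q) γ) := by
  apply Subtype.ext
  rfl

theorem jConj_conjG (γ : Gamma0 (N * q)) :
    jConjGamma0 N (conjG N q γ) = conjG N q (jConjGamma0 (N * q) γ) := by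
  have hq0 : (q : ℤ) ≠ 0 := by exact_mod_cast NeZero.ne q
  have h1 := q_mul_conjSL_10 N q γ
  have h2 := q_mul_conjSL_10 N q (jConjGamma0 (N * q) γ)
  have h3 : ((jConjGamma0 (N * q) γ : Gamma0 (N * q)) : SL(2, ℤ)) 1 0 = - (γ : SL(2, ℤ)) 1 0 := by
    show jConjMat ((γ : SL(2, ℤ)) : Matrix (Fin 2) (Fin 2) ℤ) 1 0 = _
    rw [jConjMat_apply_one_zero]
  have h4 : (conjSL N q (jConjGamma0 (N * q) γ)) 1 0 = - (conjSL N q γ) 1 0 := by
    apply mul_left_cancel₀ hq0
    rw [h2, h3, ← h1]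
    ring
  apply Subtype.ext
  apply Subtype.ext
  show jConjMat ((conjSL N q γ : SL(2, ℤ)) : Matrix (Fin 2) (Fin 2) ℤ) =
    ((conjSL N q (jConjGamma0 (N * q) γ) : SL(2, ℤ)) : Matrix (Fin 2) (Fin 2) ℤ)
  ext i j
  fin_cases i <;> fin_cases j
  · show jConjMat _ 0 0 = (conjSL N q (jConjGamma0 (N * q) γ)) 0 0
    simp [jConjMat, conjSL_apply]
  · show jConjMat _ 0 1 = (conjSL N q (jConjGamma0 (N * q) γ)) 0 1
    simp [jConjMat, conjSL_apply]
  · show jConjMat _ 1 0 = (conjSL N q (jConjGamma0 (N * q) γ)) 1 0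
    rw [h4, jConjMat_apply_one_zero]
  · show jConjMat _ 1 1 = (conjSL N q (jConjGamma0 (N * q) γ)) 1 1
    simp [jConjMat, conjSL_apply]

theorem latJ_inclA (f : CuspForm (Gamma0 N) 2) :
    latJ (N * q) (inclA N q f) = fun γ => latJ N f (inclG N q γ) := by
  funext γ
  exact periodMap_inclA N q f γ

theorem latJ_inclB (f : CuspForm (Gamma0 N) 2) :
    latJ (N * q) (inclB N q f) = fun γ => latJ N f (conjG N q γ) := by
  funext γ
  exact periodMap_inclB N q f γ

theorem latJ'_inclA (f : CuspForm (Gamma0 N) 2) :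
    latJ' (N * q) (inclA N q f) = fun γ => latJ' N f (inclG N q γ) := by
  funext γ
  show periodMap (N * q) (inclA N q f) (Additive.ofMul (jConjGamma0 (N * q) γ)) =
    periodMap N f (Additive.ofMul (jConjGamma0 N (inclG N q γ)))
  rw [periodMap_inclA, jConj_inclG]

theorem latJ'_inclB (f : CuspForm (Gamma0 N) 2) :
    latJ' (N * q) (inclB N q f) = fun γ => latJ' N f (conjG N q γ) := by
  funext γ
  show periodMap (N * q) (inclB N q f) (Additive.ofMul (jConjGamma0 (N * q) γ)) =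
    periodMap N f (Additive.ofMul (jConjGamma0 N (conjG N q γ)))
  rw [periodMap_inclB, jConj_conjG]

end Fermat.Agent.S41.Link
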