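import Fermat.Agent.S41.Link.Span
import Fermat.Agent.S41.Link.Per

/-!
# S41, (E8): the link between forms and lattices
-/

set_option autoImplicit false

namespace Fermat.Agent.S41.Link

open CongruenceSubgroup Matrix.SpecialLinearGroup ModularForm ModularCurve ModularCurve.Period
open Fermat.Agent.S16 Fermat.Agent.S31 Fermat.Agent.NEW Fermat.Agent.S41.Forms
open scoped MatrixGroups Manifold

variable (N q : ℕ) [NeZero N] [NeZero q]

/-- the old sublattice. -/
def oldL : AddSubgroup (Lat (N * q)) where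
  carrier := {h | ∃ u₁ u₂ : Lat N, h = rL N q u₁ u₂}
  zero_mem' := ⟨0, 0, by simp [rL]⟩
  add_mem' := by
    rintro _ _ ⟨u₁, u₂, rfl⟩ ⟨v₁, v₂, rfl⟩
    exact ⟨u₁ + v₁, u₂ + v₂, by simp only [rL, map_add]; abel⟩
  neg_mem' := by
    rintro _ ⟨u₁, u₂, rfl⟩
    exact ⟨-u₁, -u₂, by simp only [rL, map_neg]; abel⟩

theorem resL_mem (u : Lat N) : resL N q u ∈ oldL N q := ⟨u, 0, by simp [rL]⟩

theorem cnjL_mem (u : Lat N) : cnjL N q u ∈ oldL N q := ⟨0, u, by simp [rL]⟩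

/-- a complex parabolic class of level `N`, restricted to level `N q`, lies in the span of the
old lattice. -/
theorem comp_inclG_mem (ψ : Additive (Gamma0 N) →+ ℂ) (hψ : IsParabolicHom (Gamma0 N) ψ) :
    (fun γ : Gamma0 (N * q) => ψ (Additive.ofMul (inclG N q γ))) ∈
      Submodule.span ℂ (latι (N * q) '' (oldL N q : Set (Lat (N * q)))) := by
  have h1 := span_of_parabolic N ψ hψ
  have h2 := Submodule.mem_map_of_mem (f := LinearMap.funLeft ℂ ℂ (inclG N q)) h1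
  rw [Submodule.map_span] at h2
  refine Submodule.span_mono ?_ h2
  rintro _ ⟨_, ⟨u, rfl⟩, rfl⟩
  exact ⟨resL N q u, resL_mem N q u, rfl⟩

theorem comp_conjG_mem (ψ : Additive (Gamma0 N) →+ ℂ) (hψ : IsParabolicHom (Gamma0 N) ψ) :
    (fun γ : Gamma0 (N * q) => ψ (Additive.ofMul (conjG N q γ))) ∈
      Submodule.span ℂ (latι (N * q) '' (oldL N q : Set (Lat (N * q)))) := by
  have h1 := span_of_parabolic N ψ hψ
  have h2 := Submodule.mem_map_of_mem (f := LinearMap.funLeft ℂ ℂ (conjG N q)) h1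
  rw [Submodule.map_span] at h2
  refine Submodule.span_mono ?_ h2
  rintro _ ⟨_, ⟨u, rfl⟩, rfl⟩
  exact ⟨cnjL N q u, cnjL_mem N q u, rfl⟩

theorem isPar_periodMap (f : CuspForm (Gamma0 N) 2) : IsParabolicHom (Gamma0 N) (periodMap N f) :=
  mem_parabolicHoms_iff.1 (ES.periodMap_mem_parabolicHoms N f)

theorem isPar_periodMapJ (f : CuspForm (Gamma0 N) 2) :
    IsParabolicHom (Gamma0 N) (charInvolution N ℂ ℂ (periodMap N f)) :=
  mem_parabolicHoms_iff.1
    (charInvolution_mem_parabolicHoms N ℂ ℂ (ES.periodMap_mem_parabolicHoms N f))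

/-- periods of old forms lie in the span of the old lattice. -/
theorem latJ_old_mem (f₁ f₂ : CuspForm (Gamma0 N) 2) :
    latJ (N * q) (inclA N q f₁ + inclB N q f₂) ∈
      Submodule.span ℂ (latι (N * q) '' (oldL N q : Set (Lat (N * q)))) := by
  rw [map_add, latJ_inclA, latJ_inclB]
  exact Submodule.add_mem _ (comp_inclG_mem N q _ (isPar_periodMap N f₁))
    (comp_conjG_mem N q _ (isPar_periodMap N f₂))

theorem latJ'_old_mem (f₁ f₂ : CuspForm (Gamma0 N) 2) :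
    latJ' (N * q) (inclA N q f₁ + inclB N q f₂) ∈
      Submodule.span ℂ (latι (N * q) '' (oldL N q : Set (Lat (N * q)))) := by
  rw [map_add, latJ'_inclA, latJ'_inclB]
  exact Submodule.add_mem _ (comp_inclG_mem N q _ (isPar_periodMapJ N f₁))
    (comp_conjG_mem N q _ (isPar_periodMapJ N f₂))

/-- (E8) from the statement on forms. -/
theorem e8 (G : ℕ → Prop)
    (hold : ∀ P : FreeAlgebra ℤ ℕ,
      (∀ v ∈ Vnew (N * q) q (Dvd.intro_left N rfl),
        FreeAlgebra.lift ℤ (S31.heckeFam (N * q)) (mask G P) v = 0) →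
      ∀ g, ∃ f₁ f₂ : CuspForm (Gamma0 N) 2,
        FreeAlgebra.lift ℤ (S31.heckeFam (N * q)) (mask G P) g =
          inclA N q f₁ + inclB N q f₂) : E8 N q G := by
  intro P hP h
  set Q := mask G P with hQ
  have h1 : ∀ φ, latι (N * q) (FreeAlgebra.lift ℤ (latT (N * q)) Q φ) =
      FreeAlgebra.lift ℤ (funT (N * q)) Q (latι (N * q) φ) :=
    S30.linkPeriod_intertwine (S30.linkPeriod_toAdd ℤ (Lat (N * q)))
      (S30.linkPeriod_toAdd ℂ (Gamma0 (N * q) → ℂ)) (latT (N * q)) (funT (N * q))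
      (latι (N * q)) (latι_latT (N * q)) Q
  have h2 : ∀ f, latJ (N * q) (FreeAlgebra.lift ℤ (heckeFam (N * q)) Q f) =
      FreeAlgebra.lift ℤ (funT (N * q)) Q (latJ (N * q) f) :=
    S30.linkPeriod_intertwine (S30.linkPeriod_toAdd ℂ (CuspForm (Gamma0 (N * q)) 2))
      (S30.linkPeriod_toAdd ℂ (Gamma0 (N * q) → ℂ)) (heckeFam (N * q)) (funT (N * q))
      (latJ (N * q)) (latJ_heckeFam (N * q)) Q
  have h3 : ∀ f, latJ' (N * q) (FreeAlgebra.lift ℤ (heckeFam (N * q)) Q f) =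
      FreeAlgebra.lift ℤ (funT (N * q)) Q (latJ' (N * q) f) :=
    S30.linkPeriod_intertwine (S30.linkPeriod_toAdd ℂ (CuspForm (Gamma0 (N * q)) 2))
      (S30.linkPeriod_toAdd ℂ (Gamma0 (N * q) → ℂ)) (heckeFam (N * q)) (funT (N * q))
      (latJ' (N * q)) (latJ'_heckeFam (N * q)) Q
  obtain ⟨f, g, hfg⟩ := latι_eq_periods (N * q) h
  obtain ⟨f₁, f₂, hf⟩ := hold P hP f
  obtain ⟨g₁, g₂, hg⟩ := hold P hP g
  have hmem : latι (N * q) (FreeAlgebra.lift ℤ (latT (N * q)) Q h) ∈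
      Submodule.span ℂ (latι (N * q) '' (oldL N q : Set (Lat (N * q)))) := by
    rw [h1, hfg, map_add, map_add, map_sub, ← h2, ← h3, ← h2, ← h3, hf, hg]
    exact Submodule.add_mem _
      (Submodule.add_mem _ (latJ_old_mem N q f₁ f₂) (latJ'_old_mem N q f₁ f₂))
      (Submodule.sub_mem _ (latJ_old_mem N q g₁ g₂) (latJ'_old_mem N q g₁ g₂))
  obtain ⟨n, hn, u₁, u₂, hu⟩ := exists_zsmul_mem_lat (N * q) (oldL N q) _ hmem
  exact ⟨n, hn, u₁, u₂, hu⟩

end Fermat.Agent.S41.Link
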