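import Fermat.Agent.S31.Lattice

/-!
# S41, (E8): an integral vector in the complex span of a subgroup of a lattice has a non-zero
multiple in the subgroup
-/

set_option autoImplicit false

namespace Fermat.Agent.S41.Link

/-- a `ℚ`-linear retraction of `ℂ` onto `ℚ`. -/
theorem exists_retraction : ∃ π : ℂ →ₗ[ℚ] ℚ, ∀ x : ℚ, π (x : ℂ) = x := by
  obtain ⟨π, hπ⟩ := LinearMap.exists_leftInverse_of_injective (Algebra.linearMap ℚ ℂ)
    (LinearMap.ker_eq_bot.2 (algebraMap ℚ ℂ).injective)
  refine ⟨π, fun x => ?_⟩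
  have := congrArg (fun f : ℚ →ₗ[ℚ] ℚ => f x) hπ
  simpa using this

/-- rational combinations of elements of a subgroup have a non-zero multiple in it. -/
theorem exists_zsmul_mem_of_rat {X : Type*} (R : AddSubgroup (X → ℤ)) (h : X → ℤ)
    (hh : (fun x => (h x : ℚ)) ∈
      Submodule.span ℚ ((fun r : X → ℤ => fun x => (r x : ℚ)) '' (R : Set (X → ℤ)))) :
    ∃ n : ℤ, n ≠ 0 ∧ n • h ∈ R := by
  have key : ∀ v ∈ Submodule.span ℚ ((fun r : X → ℤ => fun x => (r x : ℚ)) '' (R : Set (X → ℤ))),
      ∃ n : ℤ, n ≠ 0 ∧ ∃ r ∈ R, (n : ℚ) • v = fun x => (r x : ℚ) := by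
    intro v hv
    induction hv using Submodule.span_induction with
    | mem v hv =>
      obtain ⟨r, hr, rfl⟩ := hv
      exact ⟨1, one_ne_zero, r, hr, by simp⟩
    | zero => exact ⟨1, one_ne_zero, 0, R.zero_mem, by funext x; simp⟩
    | add v w _ _ hv hw =>
      obtain ⟨n, hn, r, hr, h1⟩ := hv
      obtain ⟨m, hm, s, hs, h2⟩ := hw
      refine ⟨n * m, mul_ne_zero hn hm, m • r + n • s,
        R.add_mem (R.zsmul_mem hr m) (R.zsmul_mem hs n), ?_⟩
      funext x
      have h1' := congrFun h1 x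
      have h2' := congrFun h2 x
      simp only [Pi.smul_apply, smul_eq_mul, Pi.add_apply, Int.cast_add, Int.cast_mul] at h1' h2' ⊢
      rw [← h1', ← h2']
      ring
    | smul c v _ hv =>
      obtain ⟨n, hn, r, hr, h1⟩ := hv
      refine ⟨n * c.den, mul_ne_zero hn (by exact_mod_cast c.den_nz), c.num • r,
        R.zsmul_mem hr _, ?_⟩
      funext x
      have h1' := congrFun h1 x
      simp only [Pi.smul_apply, smul_eq_mul, Int.cast_mul, Int.cast_natCast] at h1' ⊢
      rw [← h1']
      have hc : (c.den : ℚ) * c = c.num := by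
        rw [mul_comm]; exact Rat.mul_den_eq_num c
      calc (n : ℚ) * (c.den : ℚ) * (c * v x) = ((c.den : ℚ) * c) * ((n : ℚ) * v x) := by ring
        _ = (c.num : ℚ) * ((n : ℚ) * v x) := by rw [hc]
  obtain ⟨n, hn, r, hr, h1⟩ := key _ hh
  refine ⟨n, hn, ?_⟩
  have : n • h = r := by
    funext x
    have := congrFun h1 x
    simp only [Pi.smul_apply, smul_eq_mul] at this ⊢
    exact_mod_cast this
  rw [this]
  exact hr

/-- the main lemma, for integer valued functions. -/
theorem exists_zsmul_mem {X : Type*} (R : AddSubgroup (X → ℤ)) (h : X → ℤ)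
    (hh : (fun x => (h x : ℂ)) ∈
      Submodule.span ℂ ((fun r : X → ℤ => fun x => (r x : ℂ)) '' (R : Set (X → ℤ)))) :
    ∃ n : ℤ, n ≠ 0 ∧ n • h ∈ R := by
  obtain ⟨π, hπ⟩ := exists_retraction
  apply exists_zsmul_mem_of_rat
  have key : ∀ v ∈ Submodule.span ℂ ((fun r : X → ℤ => fun x => (r x : ℂ)) '' (R : Set (X → ℤ))),
      ∀ c : ℂ, (fun x => π (c * v x)) ∈
        Submodule.span ℚ ((fun r : X → ℤ => fun x => (r x : ℚ)) '' (R : Set (X → ℤ))) := by
    intro v hv
    induction hv using Submodule.span_induction with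
    | mem v hv =>
      intro c
      obtain ⟨r, hr, rfl⟩ := hv
      have : (fun x => π (c * ((r x : ℤ) : ℂ))) = π c • fun x => ((r x : ℤ) : ℚ) := by
        funext x
        simp only [Pi.smul_apply, smul_eq_mul]
        have h1 : c * ((r x : ℤ) : ℂ) = ((r x : ℤ) : ℚ) • c := by
          rw [Rat.smul_def]; push_cast; ring
        rw [h1, map_smul, smul_eq_mul, mul_comm]
      rw [this]
      exact Submodule.smul_mem _ _ (Submodule.subset_span ⟨r, hr, rfl⟩)
    | zero =>
      intro c
      have : (fun x : X => π (c * (0 : X → ℂ) x)) = 0 := by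
        funext x; simp
      rw [this]
      exact Submodule.zero_mem _
    | add v w _ _ hv hw =>
      intro c
      have : (fun x => π (c * (v + w) x)) = (fun x => π (c * v x)) + fun x => π (c * w x) := by
        funext x; simp [mul_add]
      rw [this]
      exact Submodule.add_mem _ (hv c) (hw c)
    | smul d v _ hv =>
      intro c
      have : (fun x => π (c * (d • v) x)) = fun x => π ((c * d) * v x) := by
        funext x; simp [mul_assoc]
      rw [this]
      exact hv (c * d)
  have := key _ hh 1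
  have h2 : (fun x => π (1 * ((h x : ℤ) : ℂ))) = fun x => ((h x : ℤ) : ℚ) := by
    funext x
    have := hπ (h x : ℚ)
    simpa using this
  rwa [h2] at this

open Fermat.Agent.S31 in
/-- the main lemma, for the lattices `Hom_par(Γ₀(M), ℤ)`. -/
theorem exists_zsmul_mem_lat (M : ℕ) (R : AddSubgroup (Lat M)) (h : Lat M)
    (hh : latι M h ∈ Submodule.span ℂ (latι M '' (R : Set (Lat M)))) :
    ∃ n : ℤ, n ≠ 0 ∧ n • h ∈ R := by
  let ev : Lat M →+ (CongruenceSubgroup.Gamma0 M → ℤ) :=
    { toFun := fun φ γ => φ.1 (Additive.ofMul γ)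
      map_zero' := rfl
      map_add' := fun _ _ => rfl }
  have hev : Function.Injective ev := by
    intro φ ψ hφψ
    apply Subtype.ext
    apply AddMonoidHom.ext
    intro γ
    exact congrFun hφψ (Additive.toMul γ)
  obtain ⟨n, hn, hmem⟩ := exists_zsmul_mem (R.map ev) (ev h) (by
    have : (fun r : CongruenceSubgroup.Gamma0 M → ℤ => fun x => (r x : ℂ)) ''
        ((R.map ev : AddSubgroup _) : Set (CongruenceSubgroup.Gamma0 M → ℤ)) =
          latι M '' (R : Set (Lat M)) := by
      ext v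
      constructor
      · rintro ⟨_, ⟨r, hr, rfl⟩, rfl⟩
        exact ⟨r, hr, rfl⟩
      · rintro ⟨r, hr, rfl⟩
        exact ⟨ev r, ⟨r, hr, rfl⟩, rfl⟩
    rw [this]
    exact hh)
  obtain ⟨r, hr, hre⟩ := hmem
  refine ⟨n, hn, ?_⟩
  have : n • h = r := hev (by rw [map_zsmul, hre])
  rw [this]
  exact hr

end Fermat.Agent.S41.Link
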